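import Mathlib

/-!
# S18 node D2, abstract part (helper824): Kummer descent along an extension of coprime degree

`K ⊆ E ≤ F ⊆ Ω` fields, `d = [F : E]` finite and coprime to `m`.  If `u ∈ E` is of the form
`c * y ^ m` with `c ∈ K`, `y ∈ F`, then it is of the form `c' * y' ^ m` with `c' ∈ K`, `y' ∈ E`.
(Proof: take the norm `N_{F/E}` and use Bezout.)
-/

set_option autoImplicit false

namespace Fermat.Agent.S18.H824

open IntermediateField

/-- Bezout step in a commutative group with zero: `u ^ d = c ^ d * z ^ m` with `d`, `m` coprime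
gives `u = c' * y' ^ m`, with `c'` an integer power of `c` and `y'` a product of powers of
`z` and `u`. -/
theorem exists_zpow_of_pow_eq {G : Type*} [CommGroupWithZero G] {u c z : G} {d m : ℕ}
    (hdm : Nat.Coprime d m) (hu : u ≠ 0) (h : u ^ d = c ^ d * z ^ m) :
    ∃ a b : ℤ, u = c ^ ((d : ℤ) * a) * (z ^ a * u ^ b) ^ m := by
  refine ⟨Nat.gcdA d m, Nat.gcdB d m, ?_⟩
  have hbez : (d : ℤ) * Nat.gcdA d m + (m : ℤ) * Nat.gcdB d m = 1 := by
    have := Nat.gcd_eq_gcd_ab d m
    rw [hdm.gcd_eq_one] at this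
    exact_mod_cast this.symm
  set a := Nat.gcdA d m
  set b := Nat.gcdB d m
  calc u = u ^ ((d : ℤ) * a + (m : ℤ) * b) := by rw [hbez, zpow_one]
    _ = (u ^ d) ^ a * (u ^ b) ^ m := by
        rw [zpow_add₀ hu, zpow_mul, zpow_mul, zpow_natCast, ← zpow_natCast (u ^ b) m,
          ← zpow_mul, ← zpow_mul, mul_comm (m : ℤ) b]
    _ = (c ^ d * z ^ m) ^ a * (u ^ b) ^ m := by rw [h]
    _ = c ^ ((d : ℤ) * a) * (z ^ a * u ^ b) ^ m := by
        rw [mul_zpow, zpow_mul, zpow_natCast, mul_pow, ← zpow_natCast (z ^ a) m, ← zpow_mul,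
          mul_comm a (m : ℤ), zpow_mul, zpow_natCast, mul_assoc]

/-- If `[F : E]` is finite and nonzero, the inclusion `E → F` is integral. -/
theorem isIntegral_inclusion {K Ω : Type*} [Field K] [Field Ω] [Algebra K Ω]
    {E F : IntermediateField K Ω} (hEF : E ≤ F) (hd0 : E.relfinrank F ≠ 0) :
    (IntermediateField.inclusion hEF).toRingHom.IsIntegral := by
  have hfree : Module.Free E (extendScalars hEF) := Module.Free.of_divisionRing _ _
  have hfd : FiniteDimensional E (extendScalars hEF) := by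
    apply Module.finite_of_finrank_pos
    rw [← relfinrank_eq_finrank_of_le hEF]
    exact Nat.pos_of_ne_zero hd0
  intro x
  have hx : IsIntegral E (⟨(x : Ω), (mem_extendScalars hEF).mpr x.2⟩ : extendScalars hEF) :=
    IsIntegral.of_finite _ _
  obtain ⟨p, hp, hpx⟩ := hx
  refine ⟨p, hp, ?_⟩
  have h1 := congrArg (Subtype.val : extendScalars hEF → Ω) hpx
  apply Subtype.ext
  rw [Polynomial.eval₂_eq_sum_range] at h1 ⊢
  have h2 : ∀ i : ℕ, ((algebraMap E (extendScalars hEF) (p.coeff i) *
      (⟨(x : Ω), (mem_extendScalars hEF).mpr x.2⟩ : extendScalars hEF) ^ i :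
        extendScalars hEF) : Ω) =
      (((IntermediateField.inclusion hEF).toRingHom (p.coeff i) * x ^ i : F) : Ω) := fun i => rfl
  have h3 : ((∑ i ∈ Finset.range (p.natDegree + 1),
      (algebraMap E (extendScalars hEF) (p.coeff i) *
      (⟨(x : Ω), (mem_extendScalars hEF).mpr x.2⟩ : extendScalars hEF) ^ i) :
        extendScalars hEF) : Ω) =
      ((∑ i ∈ Finset.range (p.natDegree + 1),
        ((IntermediateField.inclusion hEF).toRingHom (p.coeff i) * x ^ i) : F) : Ω) := by
    rw [show ((∑ i ∈ Finset.range (p.natDegree + 1),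
      (algebraMap E (extendScalars hEF) (p.coeff i) *
      (⟨(x : Ω), (mem_extendScalars hEF).mpr x.2⟩ : extendScalars hEF) ^ i) :
        extendScalars hEF) : Ω) = ∑ i ∈ Finset.range (p.natDegree + 1),
      (((algebraMap E (extendScalars hEF) (p.coeff i) *
      (⟨(x : Ω), (mem_extendScalars hEF).mpr x.2⟩ : extendScalars hEF) ^ i) :
        extendScalars hEF) : Ω) from
      map_sum (extendScalars hEF).val _ _]
    rw [show ((∑ i ∈ Finset.range (p.natDegree + 1),
        ((IntermediateField.inclusion hEF).toRingHom (p.coeff i) * x ^ i) : F) : Ω) =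
        ∑ i ∈ Finset.range (p.natDegree + 1),
        ((((IntermediateField.inclusion hEF).toRingHom (p.coeff i) * x ^ i) : F) : Ω) from
      map_sum F.val _ _]
    exact Finset.sum_congr rfl fun i _ => h2 i
  rw [← h3]
  exact h1

/-- **Kummer descent along an extension of degree prime to `m`.**  `E ≤ F` intermediate fields of
`Ω/K` with `[F : E] = d ≠ 0` coprime to `m`; `u ∈ E` nonzero with `u = c * y ^ m`, `c ∈ K`,
`y ∈ F`.  Then `u = c' * y' ^ m` with `c' ∈ K` nonzero and `y' ∈ E` nonzero. -/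
theorem exists_descent {K Ω : Type*} [Field K] [Field Ω] [Algebra K Ω]
    {E F : IntermediateField K Ω} (hEF : E ≤ F) {m : ℕ}
    (hd0 : E.relfinrank F ≠ 0) (hdm : Nat.Coprime (E.relfinrank F) m)
    {u : Ω} (huE : u ∈ E) (hu : u ≠ 0) {c : K} {y : Ω} (hyF : y ∈ F)
    (h : u = algebraMap K Ω c * y ^ m) :
    ∃ (c' : K) (y' : Ω), c' ≠ 0 ∧ y' ≠ 0 ∧ y' ∈ E ∧ u = algebraMap K Ω c' * y' ^ m := by
  classical
  -- `F` as an intermediate field of `Ω/E`
  set F' : IntermediateField E Ω := extendScalars hEF with hF'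
  have hfr : Module.finrank E F' = E.relfinrank F := (relfinrank_eq_finrank_of_le hEF).symm
  have hfd : FiniteDimensional E F' := by
    apply Module.finite_of_finrank_pos
    rw [hfr]
    exact Nat.pos_of_ne_zero hd0
  have hfree : Module.Free E F' := Module.Free.of_divisionRing E F'
  set d := E.relfinrank F with hd
  -- the elements
  let uE : E := ⟨u, huE⟩
  let yF : F' := ⟨y, (mem_extendScalars hEF).mpr hyF⟩
  let cE : E := algebraMap K E c
  have hrel : algebraMap E F' uE = algebraMap E F' cE * yF ^ m := by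
    apply Subtype.ext
    show u = algebraMap K Ω c * y ^ m
    exact h
  have hnorm : uE ^ d = cE ^ d * (Algebra.norm E yF) ^ m := by
    have := congrArg (Algebra.norm E) hrel
    rw [Algebra.norm_algebraMap (R := E) (S := F'), map_mul,
      Algebra.norm_algebraMap (R := E) (S := F'), map_pow, hfr] at this
    exact this
  have huE0 : uE ≠ 0 := fun h0 => hu (congrArg Subtype.val h0)
  obtain ⟨a, b, hab⟩ := exists_zpow_of_pow_eq hdm huE0 hnorm
  have hc0 : c ≠ 0 := by
    rintro rfl
    rw [map_zero, zero_mul] at h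
    exact hu h
  by_cases hm : m = 0
  · subst hm
    refine ⟨c, 1, hc0, one_ne_zero, E.one_mem, ?_⟩
    rw [one_pow, mul_one]
    rw [pow_zero, mul_one] at h
    exact h
  have hy0 : y ≠ 0 := by
    rintro rfl
    rw [zero_pow hm, mul_zero] at h
    exact absurd h hu
  have hyF0 : yF ≠ 0 := fun h0 => hy0 (congrArg Subtype.val h0)
  have hN0 : Algebra.norm E yF ≠ 0 := by
    rw [Ne, Algebra.norm_eq_zero_iff]
    exact hyF0
  refine ⟨c ^ ((d : ℤ) * a), ((Algebra.norm E yF) ^ a * uE ^ b : E), zpow_ne_zero _ hc0, ?_,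
    Subtype.mem _, ?_⟩
  · have : (Algebra.norm E yF) ^ a * uE ^ b ≠ 0 :=
      mul_ne_zero (zpow_ne_zero _ hN0) (zpow_ne_zero _ huE0)
    exact fun h0 => this (Subtype.ext h0)
  · have h1 : u = ((cE ^ ((d : ℤ) * a) * ((Algebra.norm E yF) ^ a * uE ^ b) ^ m : E) : Ω) :=
      congrArg (Subtype.val : E → Ω) hab
    refine h1.trans ?_
    have h2 : ((cE ^ ((d : ℤ) * a) : E) : Ω) = algebraMap K Ω (c ^ ((d : ℤ) * a)) := by
      rw [map_zpow₀]
      exact map_zpow₀ (algebraMap E Ω) cE _
    rw [← h2]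
    rfl

end Fermat.Agent.S18.H824
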