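import Mathlib
import Fermat.Agent.S18.Spec
import Fermat.Agent.S18.H824.NormDescent
import Fermat.Agent.S28.H988.Degree
import Fermat.Prelude.Def_AlgebraicCurve_Correspondence

/-!
# S18 node D2 (helper824): transfer of CORE from level `M` to level `N`

Exact node statement (with `levelM` of `Integ/Skeleton.lean` unfolded):

    theorem node_d2 (N : ℕ) [NeZero N] {ℓ : ℕ} [Fact ℓ.Prime] (hℓN : ¬ ℓ ∣ N)
        (A : ValuationSubring Qb) (hA : A.LiesOverPrime ℓ) (m : ℕ) (hm : ¬ ℓ ∣ m) :
        CoreStatement (if ℓ = 3 then Nat.lcm N 2 else if ℓ = 2 then Nat.lcm N 3 else N) A m →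
          CoreStatement N A m

General form: `core_of_core_of_dvd` (any `N ∣ M` with `[F_M : F_N]` finite and coprime to `m`).
-/

set_option autoImplicit false

noncomputable section

namespace Fermat.Agent.S18.H824

open ModularCurve AlgebraicCurve HahnSeries IntermediateField

theorem bar_le_of_dvd {N M : ℕ} [NeZero N] [NeZero M] (h : N ∣ M) :
    modularFunctionFieldBar N ≤ modularFunctionFieldBar M := by
  rw [Fermat.Agent.S28.H988.modularFunctionFieldBar_eq_fullC,
    Fermat.Agent.S28.H988.modularFunctionFieldBar_eq_fullC]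
  exact full_degeneracyC_le _ h

theorem isInt_of_dvd {N M : ℕ} [NeZero N] [NeZero M] (h : N ∣ M) {A : ValuationSubring Qb}
    {U : LaurentSeries A} (hU : IsInt A N U) : IsInt A M U :=
  ⟨bar_le_of_dvd h hU.1, full_degeneracyC_le _ h hU.2.1, hU.2.2⟩

theorem toF_ne_zero {N : ℕ} {A : ValuationSubring Qb} {U : LaurentSeries A} (hU : IsInt A N U) :
    toF hU ≠ 0 := by
  intro h0
  have h1 : coeffMap A.subtype U = 0 := congrArg Subtype.val h0
  apply hU.2.2
  have hU0 : U = 0 := by
    ext n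
    have := congrArg (fun f : LaurentSeries Qb => f.coeff n) h1
    simpa using this
  rw [hU0, map_zero]

/-- **D2, general form.**  CORE descends from level `M` to a divisor `N` of `M` provided
`[F_M : F_N]` is finite and coprime to `m`. -/
theorem core_of_core_of_dvd {N M : ℕ} [NeZero N] [NeZero M] (hNM : N ∣ M)
    (A : ValuationSubring Qb) (m : ℕ)
    (hd0 : (modularFunctionFieldBar N).relfinrank (modularFunctionFieldBar M) ≠ 0)
    (hdm : Nat.Coprime ((modularFunctionFieldBar N).relfinrank (modularFunctionFieldBar M)) m) :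
    CoreStatement M A m → CoreStatement N A m := by
  intro hM U₁ U₂ h₁ h₂ hred hdiv
  have hle := bar_le_of_dvd hNM
  -- the inclusion and its integrality
  set φ : modularFunctionFieldBar N →ₐ[Qb] modularFunctionFieldBar M :=
    IntermediateField.inclusion hle with hφdef
  have hφ : φ.toRingHom.IsIntegral := isIntegral_inclusion hle hd0
  have h₁' := isInt_of_dvd hNM h₁
  have h₂' := isInt_of_dvd hNM h₂
  have hφ₁ : φ (toF h₁) = toF h₁' := rfl
  have hφ₂ : φ (toF h₂) = toF h₂' := rfl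
  obtain ⟨c, y, hc, hy, hcy⟩ := hM U₁ U₂ h₁' h₂' hred (by
    intro w
    have e₁ := Place.ord_restrictAlong φ hφ w (toF h₁)
    have e₂ := Place.ord_restrictAlong φ hφ w (toF h₂)
    rw [hφ₁] at e₁
    rw [hφ₂] at e₂
    rw [e₁, e₂, ← mul_sub]
    exact Dvd.dvd.mul_left (hdiv _) _)
  -- pass to the ambient field and descend
  have h₂0 : (coeffMap A.subtype U₂ : LaurentSeries Qb) ≠ 0 := fun h0 =>
    toF_ne_zero h₂ (Subtype.ext h0)
  have h₁0 : (coeffMap A.subtype U₁ : LaurentSeries Qb) ≠ 0 := fun h0 =>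
    toF_ne_zero h₁ (Subtype.ext h0)
  have hrel : (coeffMap A.subtype U₁ : LaurentSeries Qb) =
      algebraMap Qb (LaurentSeries Qb) c * (y : LaurentSeries Qb) ^ m *
        coeffMap A.subtype U₂ := congrArg Subtype.val hcy
  set u : LaurentSeries Qb := coeffMap A.subtype U₁ / coeffMap A.subtype U₂ with hu
  have huE : u ∈ modularFunctionFieldBar N := div_mem h₁.1 h₂.1
  have hu0 : u ≠ 0 := div_ne_zero h₁0 h₂0
  have hueq : u = algebraMap Qb (LaurentSeries Qb) c * (y : LaurentSeries Qb) ^ m := by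
    rw [hu, hrel, mul_div_assoc, div_self h₂0, mul_one]
  obtain ⟨c', y', hc', hy', hy'E, hfin⟩ :=
    exists_descent hle hd0 hdm huE hu0 y.2 hueq
  refine ⟨c', ⟨y', hy'E⟩, hc', fun h0 => hy' (congrArg Subtype.val h0), ?_⟩
  apply Subtype.ext
  show (coeffMap A.subtype U₁ : LaurentSeries Qb) =
    algebraMap Qb (LaurentSeries Qb) c' * y' ^ m * coeffMap A.subtype U₂
  rw [← hfin, hu, div_mul_cancel₀ _ h₂0]

/-- D2 for one auxiliary prime `p ∤ N` with `p + 1` coprime to `m`. -/
theorem core_of_core_mul_prime (N : ℕ) [NeZero N] {p : ℕ} (hp : p.Prime) (hpN : ¬ p ∣ N)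
    (A : ValuationSubring Qb) (m : ℕ) (hdm : Nat.Coprime (p + 1) m) :
    CoreStatement (N * p) A m → CoreStatement N A m := by
  have : NeZero (N * p) := ⟨Nat.mul_ne_zero (NeZero.ne N) hp.ne_zero⟩
  have hdeg := Fermat.Agent.S28.H988.relfinrank_bar_mul_prime N p (NeZero.ne N) hp
  rw [if_neg hpN] at hdeg
  exact core_of_core_of_dvd (Dvd.intro p rfl) A m (by rw [hdeg]; exact Nat.succ_ne_zero p)
    (by rw [hdeg]; exact hdm)

/-- D2 with `lcm`: `CORE(lcm N p) → CORE(N)` for a prime `p` with `p + 1` coprime to `m`. -/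
theorem core_of_core_lcm_prime (N : ℕ) [NeZero N] {p : ℕ} (hp : p.Prime)
    (A : ValuationSubring Qb) (m : ℕ) (hdm : Nat.Coprime (p + 1) m) :
    CoreStatement (Nat.lcm N p) A m → CoreStatement N A m := by
  by_cases hpN : p ∣ N
  · rw [Nat.lcm_eq_left hpN]
    exact id
  · have hcop : Nat.Coprime N p := ((Nat.Prime.coprime_iff_not_dvd hp).mpr hpN).symm
    rw [hcop.lcm_eq_mul]
    exact core_of_core_mul_prime N hp hpN A m hdm

/-- **NODE D2** in the exact shape of `Integ/Skeleton.lean` (`levelM` unfolded). -/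
theorem node_d2 (N : ℕ) [NeZero N] {ℓ : ℕ} [Fact ℓ.Prime] (_hℓN : ¬ ℓ ∣ N)
    (A : ValuationSubring Qb) (_hA : A.LiesOverPrime ℓ) (m : ℕ) (hm : ¬ ℓ ∣ m) :
    CoreStatement (if ℓ = 3 then Nat.lcm N 2 else if ℓ = 2 then Nat.lcm N 3 else N) A m →
      CoreStatement N A m := by
  split_ifs with h3 h2
  · subst h3
    exact core_of_core_lcm_prime N Nat.prime_two A m
      ((Nat.Prime.coprime_iff_not_dvd Nat.prime_three).mpr hm)
  · subst h2
    have h2m : Nat.Coprime 2 m := (Nat.Prime.coprime_iff_not_dvd Nat.prime_two).mpr hm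
    exact core_of_core_lcm_prime N Nat.prime_three A m (Nat.Coprime.pow_left 2 h2m)
  · exact id

end Fermat.Agent.S18.H824
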